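import Mathlib
import Fermat.Agent.S58.Red.Good
import Fermat.Agent.S58.PointCount
import Fermat.Agent.Lib.FrobeniusExists

/-!
# Block [V], leaf (V-B): rational torsion of order prime to a good prime `l0` is bounded

`W : WeierstrassCurve ℤ`, `l0` a prime with `l0 ∤ Δ(W)`.  A point `R` of `W` over `ℚ̄` fixed by the
whole Galois group and of exact order `m` prime to `l0` satisfies `m ≤ 2 l0 + 1`.

Proof: choose a valuation subring `A` of `ℚ̄` over `l0` and a Frobenius lift `τ` at `A`.  Reduction
modulo `A` is injective on the `m` multiples of `R` (S58 `Red/Hom`), every multiple is fixed by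
`τ`, hence both coordinates of its reduction are roots of `X ^ l0 - X`; above each of the at most
`l0` such abscissae there are at most two ordinates.
-/

set_option autoImplicit false

namespace Fermat.Agent.S12.V4.TorsionBound

open WeierstrassCurve WeierstrassCurve.Affine
open scoped WeierstrassCurve.Affine
open Fermat.Agent.S58.Red.ResidueRel Fermat.Agent.S58.Red.CurveRed Fermat.Agent.S58.Red.Hom
  Fermat.Agent.S58.Red.Galois Fermat.Agent.S58.Red.Good
open Fermat.Agent.S58.PointCount Fermat.Agent.Lib.FrobeniusExists
open Polynomial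

local notation "Qbar" => AlgebraicClosure ℚ
local notation "GQ" => (AlgebraicClosure ℚ ≃ₐ[ℚ] AlgebraicClosure ℚ)

/-! ### The count over an arbitrary field -/

section Count

variable {F : Type} [Field F]

/-- the coordinates of a point (`none` for the point at infinity) -/
def coords (W : WeierstrassCurve F) : W.toAffine.Point → Option (F × F)
  | .zero => none
  | .some x y _ => some (x, y)

theorem coords_injective (W : WeierstrassCurve F) : Function.Injective (coords W) := by
  rintro (_ | ⟨x₁, y₁, h₁⟩) (_ | ⟨x₂, y₂, h₂⟩) h
  · rfl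
  · exact absurd h (by simp [coords])
  · exact absurd h (by simp [coords])
  · simp only [coords, Option.some.injEq, Prod.mk.injEq] at h
    obtain ⟨rfl, rfl⟩ := h
    rfl

open Classical in
/-- the finite set of pairs `(x, y)` on the curve with `x ^ q = x` -/
noncomputable def fixSet (W : WeierstrassCurve F) (q : ℕ) : Finset (F × F) :=
  ((X ^ q - X : F[X]).roots.toFinset).biUnion fun x =>
    ((fibrePoly W x).roots.toFinset).image fun y => (x, y)

theorem card_fixSet_le (W : WeierstrassCurve F) {q : ℕ} (hq : 1 < q) :
    (fixSet W q).card ≤ 2 * q := by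
  classical
  unfold fixSet
  refine Finset.card_biUnion_le.trans ?_
  have h2 : ∀ x ∈ (X ^ q - X : F[X]).roots.toFinset,
      (((fibrePoly W x).roots.toFinset).image fun y => (x, y)).card ≤ 2 := by
    intro x _
    refine Finset.card_image_le.trans ((Multiset.toFinset_card_le _).trans ?_)
    exact (card_roots' _).trans (fibrePoly_natDegree W x).le
  refine (Finset.sum_le_card_nsmul _ _ 2 h2).trans ?_
  rw [smul_eq_mul, mul_comm]
  refine Nat.mul_le_mul_left 2 ((Multiset.toFinset_card_le _).trans ?_)
  exact (card_roots' _).trans (FiniteField.X_pow_card_sub_X_natDegree_eq F hq).le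

theorem coords_mem_fixSet (W : WeierstrassCurve F) {q : ℕ} (hq : 1 < q) {x y : F}
    (h : W.toAffine.Nonsingular x y) (hx : x ^ q = x) :
    (x, y) ∈ fixSet W q := by
  classical
  unfold fixSet
  rw [Finset.mem_biUnion]
  refine ⟨x, ?_, ?_⟩
  · rw [Multiset.mem_toFinset, mem_roots (FiniteField.X_pow_card_sub_X_ne_zero F hq), IsRoot.def]
    simp only [eval_sub, eval_pow, eval_X]
    rw [hx, sub_self]
  · rw [Finset.mem_image]
    exact ⟨y, Multiset.mem_toFinset.mpr (mem_roots_of_equation W h.1), rfl⟩

end Count

/-! ### The bound -/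

open Classical in
/-- **(V-B)**: a Galois-fixed point of exact order `m` prime to a good prime `l0` of an integral
model has `m ≤ 2 l0 + 1`. -/
theorem card_le (W : WeierstrassCurve ℤ) {l0 : ℕ} (hl0 : l0.Prime)
    (hgood : W.IsGoodPrimeFor l0) {m : ℕ} (hm : m.Coprime l0)
    (R : ((W.map (Int.castRingHom ℚ))⁄Qbar).Point) (hfix : ∀ σ : GQ, σ • R = R)
    (hord : addOrderOf R = m) : m ≤ 2 * l0 + 1 := by
  obtain ⟨A, hA⟩ := exists_valuationSubring_algebraicClosure l0 hl0
  obtain ⟨τ, hτ⟩ := exists_isFrobeniusAt_algebraicClosure A hl0 hA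
  have hD := hτ.mem_decompositionSubgroup
  have h := isRed_of_good W hl0 hgood A hA
  have hv : A.valuation (m : Qbar) = 1 := valuation_natCast_eq_one hl0 hA hm
  have hmR : m • R = 0 := by rw [← hord]; exact addOrderOf_nsmul_eq_zero R
  -- multiples are fixed by `τ` and killed by `m`
  have hτj : ∀ j : ℕ, τ • (j • R) = j • R := by
    intro j
    have e : j • (τ • R) = τ • (j • R) :=
      (map_nsmul (Point.map (W' := (W.map (Int.castRingHom ℚ)).toAffine) τ.toAlgHom) j R).symm
    rw [← e, hfix τ]
  have hmj : ∀ j : ℕ, m • (j • R) = 0 := by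
    intro j
    rw [smul_comm, hmR, nsmul_zero]
  set Wk : WeierstrassCurve (IsLocalRing.ResidueField A) :=
    W.map (Int.castRingHom (IsLocalRing.ResidueField A)) with hWk
  let f : ℕ → Option (IsLocalRing.ResidueField A × IsLocalRing.ResidueField A) :=
    fun j => coords Wk (red h (j • R))
  have hinj : Set.InjOn f (Finset.range m : Set ℕ) := by
    intro i hi j hj hij
    have h1 : red h (i • R) = red h (j • R) := coords_injective Wk hij
    have h2 : i • R = j • R := eq_of_red_eq_of_nsmul_eq_zero h hv (hmj i) (hmj j) h1
    rw [Finset.coe_range, Set.mem_Iio] at hi hj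
    refine nsmul_injOn_Iio_addOrderOf (x := R) ?_ ?_ h2
    · rw [hord]; exact hi
    · rw [hord]; exact hj
  have hmem : ∀ j ∈ Finset.range m, f j ∈ Finset.insertNone (fixSet Wk l0) := by
    intro j _
    by_cases hP : red h (j • R) = 0
    · have : f j = none := by
        change coords Wk (red h (j • R)) = none
        rw [hP]; rfl
      rw [this]
      exact Finset.none_mem_insertNone
    · obtain ⟨x, y, hxy, xb, yb, hPe, hx, hy⟩ := exists_of_red_ne_zero h hP
      have hr : red h (j • R) = Point.some xb yb (nonsingular_red h hxy.left hx hy) := by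
        rw [hPe]; exact red_some_of_redTo h hxy hx hy
      obtain ⟨hb', hr'⟩ := red_smul_some h hD hr
      rw [hτj j, hr] at hr'
      injection hr' with hxx hyy
      have hxq : xb ^ l0 = xb := by
        rw [← hτ.smul_residue_eq xb]; exact hxx.symm
      have : f j = some (xb, yb) := by
        change coords Wk (red h (j • R)) = some (xb, yb)
        rw [hr]; rfl
      rw [this, Finset.some_mem_insertNone]
      exact coords_mem_fixSet Wk hl0.one_lt (nonsingular_red h hxy.left hx hy) hxq
  calc m = (Finset.range m).card := (Finset.card_range m).symm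
    _ ≤ (Finset.insertNone (fixSet Wk l0)).card := Finset.card_le_card_of_injOn f hmem hinj
    _ = (fixSet Wk l0).card + 1 := Finset.card_insertNone _
    _ ≤ 2 * l0 + 1 := Nat.succ_le_succ (card_fixSet_le Wk hl0.one_lt)

end Fermat.Agent.S12.V4.TorsionBound
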